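import Mathlib

/-!
# Inertia bridge, core: lifting decomposition / inertia elements along a closed subgroup

`B` is a commutative ring with a continuous action (discrete topology on `B`) of a profinite
group `G`, `H` a closed subgroup of `G`.  Two lifting statements (pure ring theory, from Mathlib's
`Algebra.IsInvariant.exists_smul_of_under_eq_of_profinite` and
`Ideal.Quotient.stabilizerHom_surjective_of_profinite` applied to the profinite group `H`):

* `exists_mem_smul_eq`: two primes of `B` with the same `H`-invariant elements are `H`-conjugate.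
* `exists_mem_mul_mem_inertia`: if `σ` stabilises the prime `Q` and acts trivially on the
  `H`-invariants modulo `Q`, then `τ * σ` acts trivially on `B ⧸ Q` for some `τ ∈ H` stabilising `Q`.

Owner: helper88.
-/

set_option autoImplicit false
set_option linter.unusedSectionVars false

namespace Fermat.Agent.Lib.InertiaBridge.Core

open scoped Pointwise

universe u

variable {B : Type*} [CommRing B] {G : Type u} [Group G] [MulSemiringAction G B]
  [TopologicalSpace G] [CompactSpace G] [TotallyDisconnectedSpace G] [IsTopologicalGroup G]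
  [TopologicalSpace B] [DiscreteTopology B] [ContinuousSMul G B]

/-- The subring of `H`-invariants as a `ℤ`-subalgebra. -/
abbrev Inv (B : Type*) [CommRing B] {G : Type u} [Group G] [MulSemiringAction G B]
    (H : Subgroup G) : Subalgebra ℤ B :=
  FixedPoints.subalgebra ℤ B H

theorem isInvariant_inv (H : Subgroup G) : Algebra.IsInvariant (Inv B H) B H :=
  ⟨fun b hb => ⟨⟨b, hb⟩, rfl⟩⟩

theorem mem_inv_iff (H : Subgroup G) (b : B) : b ∈ Inv B H ↔ ∀ τ ∈ H, τ • b = b := by
  constructor
  · intro h τ hτ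
    exact h ⟨τ, hτ⟩
  · intro h τ
    exact h τ.1 τ.2

theorem compactSpace_of_isClosed (H : Subgroup G) (hH : IsClosed (H : Set G)) : CompactSpace H :=
  isCompact_iff_compactSpace.mp hH.isCompact

theorem continuousSMul_subgroup (H : Subgroup G) : ContinuousSMul H B := by
  constructor
  have h1 : Continuous fun p : H × B => ((p.1 : G), p.2) :=
    (continuous_subtype_val.comp continuous_fst).prodMk continuous_snd
  exact (continuous_smul (M := G) (X := B)).comp h1

/-- Two primes of `B` containing the same `H`-invariant elements are conjugate under `H`. -/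
theorem exists_mem_smul_eq (H : Subgroup G) (hH : IsClosed (H : Set G)) (Q Q' : Ideal B)
    [Q.IsPrime] [Q'.IsPrime]
    (h : ∀ b : B, (∀ τ ∈ H, τ • b = b) → (b ∈ Q ↔ b ∈ Q')) :
    ∃ τ ∈ H, Q' = τ • Q := by
  have := compactSpace_of_isClosed H hH
  have := continuousSMul_subgroup (B := B) H
  have := isInvariant_inv (B := B) H
  have hPQ : Q.under (Inv B H) = Q'.under (Inv B H) := by
    ext ⟨b, hb⟩
    simp only [Ideal.under, Ideal.mem_comap]
    exact h b ((mem_inv_iff H b).mp hb)
  obtain ⟨g, hg⟩ := Algebra.IsInvariant.exists_smul_of_under_eq_of_profinite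
    (A := Inv B H) (B := B) (G := H) Q Q' hPQ
  exact ⟨g.1, g.2, hg⟩


/-- If `σ` stabilises the prime `Q` and moves `H`-invariant elements only by elements of `Q`,
then for some `τ ∈ H` stabilising `Q` the product `τ * σ` acts trivially on `B ⧸ Q`. -/
theorem exists_mem_mul_mem_inertia (H : Subgroup G) (hH : IsClosed (H : Set G)) (Q : Ideal B)
    [Q.IsPrime] (σ : G) (hσQ : σ • Q = Q)
    (h : ∀ b : B, (∀ τ ∈ H, τ • b = b) → σ • b - b ∈ Q) :
    ∃ τ ∈ H, τ • Q = Q ∧ ∀ b : B, (τ * σ) • b - b ∈ Q := by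
  have := compactSpace_of_isClosed H hH
  have := continuousSMul_subgroup (B := B) H
  have := isInvariant_inv (B := B) H
  set P : Ideal (Inv B H) := Q.under (Inv B H) with hP
  have : Q.LiesOver P := ⟨rfl⟩
  -- the automorphism of `B ⧸ Q` induced by `σ`
  let e0 : (B ⧸ Q) ≃ₐ[ℤ ⧸ Q.under ℤ] (B ⧸ Q) :=
    Ideal.Quotient.stabilizerHom Q (Q.under ℤ) G ⟨σ, hσQ⟩
  have he0 : ∀ b : B, e0 (Ideal.Quotient.mk Q b) = Ideal.Quotient.mk Q (σ • b) := fun b => rfl
  let e : (B ⧸ Q) ≃ₐ[Inv B H ⧸ P] (B ⧸ Q) :=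
    AlgEquiv.ofRingEquiv (f := e0.toRingEquiv) (by
      intro x
      obtain ⟨a, rfl⟩ := Ideal.Quotient.mk_surjective x
      change e0 (Ideal.Quotient.mk Q (a : B)) = Ideal.Quotient.mk Q (a : B)
      rw [he0, Ideal.Quotient.eq]
      exact h (a : B) ((mem_inv_iff H (a : B)).mp a.2))
  have he : ∀ b : B, e (Ideal.Quotient.mk Q b) = Ideal.Quotient.mk Q (σ • b) := fun b => rfl
  obtain ⟨ρ, hρ⟩ := Ideal.Quotient.stabilizerHom_surjective_of_profinite (G := H) P Q e
  have hρQ : (ρ.1 : G) • Q = Q := ρ.2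
  have hρQ' : (ρ.1 : G)⁻¹ • Q = Q := by rw [inv_smul_eq_iff, hρQ]
  refine ⟨(ρ.1 : G)⁻¹, H.inv_mem ρ.1.2, hρQ', fun b => ?_⟩
  have h1 := DFunLike.congr_fun hρ (Ideal.Quotient.mk Q b)
  rw [Ideal.Quotient.stabilizerHom_apply, he, Ideal.Quotient.eq] at h1
  -- h1 : ρ • b - σ • b ∈ Q
  have h2 : σ • b - (ρ.1 : G) • b ∈ Q := by
    have := Q.neg_mem h1
    rwa [neg_sub] at this
  have h3 : (ρ.1 : G)⁻¹ • (σ • b - (ρ.1 : G) • b) ∈ (ρ.1 : G)⁻¹ • Q :=
    Ideal.smul_mem_pointwise_smul _ _ _ h2
  rw [hρQ', smul_sub, inv_smul_smul] at h3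
  rwa [mul_smul]

end Fermat.Agent.Lib.InertiaBridge.Core
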