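import Mathlib
import Fermat.Prelude.Def_FLTPrelim_Ramification
import Fermat.Agent.Lib.Frobenius
import Fermat.Agent.Lib.FrobeniusIF
import Fermat.Agent.S05.Inertia

/-!
# Inertia bridge, translation layer

For an algebraic extension `L/ℚ` and a valuation subring `A` of `L`: the prime
`primeOf A = 𝔪_A ∩ 𝓑` of the ring `𝓑 = integralClosure ℤ L` of algebraic integers, and the
dictionary

* `σ ∈ A.decompositionSubgroup ℚ ↔ σ • primeOf A = primeOf A`,
* `σ ∈ A.inertiaSubgroupIn ℚ ↔ σ • primeOf A = primeOf A ∧ ∀ b, σ • b - b ∈ primeOf A`.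

Owner: helper88.
-/

set_option autoImplicit false

namespace Fermat.Agent.Lib.InertiaBridge.Val

open scoped Pointwise
open Fermat.Agent.Lib

variable {L : Type*} [Field L]

/-- The inclusion of the algebraic integers into a valuation subring. -/
def incl (A : ValuationSubring L) : integralClosure ℤ L →+* A :=
  ((integralClosure ℤ L).val : integralClosure ℤ L →+* L).codRestrict A.toSubring
    (fun b => FrobeniusIF.mem_of_isIntegral_int A b.2)

@[simp] theorem coe_incl (A : ValuationSubring L) (b : integralClosure ℤ L) :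
    ((incl A b : A) : L) = (b : L) := rfl

/-- The prime `𝔪_A ∩ 𝓑` of the ring of algebraic integers. -/
def primeOf (A : ValuationSubring L) : Ideal (integralClosure ℤ L) :=
  Ideal.comap (incl A) (IsLocalRing.maximalIdeal A)

instance primeOf_isPrime (A : ValuationSubring L) : (primeOf A).IsPrime :=
  Ideal.comap_isPrime _ _

theorem mem_primeOf_iff (A : ValuationSubring L) (b : integralClosure ℤ L) :
    b ∈ primeOf A ↔ (b : L) ∈ A.nonunits := by
  unfold primeOf
  rw [Ideal.mem_comap, ← ValuationSubring.coe_mem_nonunits_iff, coe_incl]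

theorem natCast_mem_primeOf {A : ValuationSubring L} {ℓ : ℕ} (hA : A.LiesOverPrime ℓ) :
    (ℓ : integralClosure ℤ L) ∈ primeOf A := by
  rw [mem_primeOf_iff]
  simpa [ValuationSubring.LiesOverPrime] using hA

theorem intCast_mem_primeOf {A : ValuationSubring L} {ℓ : ℕ} (hA : A.LiesOverPrime ℓ) :
    ((ℓ : ℤ) : integralClosure ℤ L) ∈ primeOf A := by
  have := natCast_mem_primeOf hA
  simpa using this

variable [Algebra ℚ L] [Algebra.IsAlgebraic ℚ L]

theorem isAlgebraic_int (x : L) : IsAlgebraic ℤ x :=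
  ((IsFractionRing.comap_isAlgebraic_iff (A := ℤ) (K := ℚ) (C := L)).mpr inferInstance).isAlgebraic x

/-- `A` is the localisation of the ring of algebraic integers at `primeOf A`. -/
theorem mem_iff_fractions (A : ValuationSubring L) (x : L) :
    x ∈ A ↔ ∃ a s : integralClosure ℤ L, s ∉ primeOf A ∧ x = (a : L) * (s : L)⁻¹ := by
  have : CharZero L := algebraRat.charZero L
  constructor
  · intro hx
    obtain ⟨s, hs, hsA, hsx⟩ := FrobeniusIF.exists_unit_mul_isIntegral A (isAlgebraic_int x) hx
    refine ⟨⟨s * x, hsx⟩, ⟨s, hs⟩, ?_, ?_⟩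
    · rw [mem_primeOf_iff]; exact hsA
    · have hs0 : s ≠ 0 := by
        rintro rfl
        exact hsA (A.mem_nonunits_iff_or.mpr (Or.inl rfl))
      change x = s * x * s⁻¹
      field_simp
  · rintro ⟨a, s, hs, rfl⟩
    rw [mem_primeOf_iff] at hs
    have hsA : (s : L) ∈ A := FrobeniusIF.mem_of_isIntegral_int A s.2
    have haA : (a : L) ∈ A := FrobeniusIF.mem_of_isIntegral_int A a.2
    have hs' : (s : L)⁻¹ ∈ A := by
      by_contra hcon
      apply hs
      rw [A.mem_nonunits_iff_or]
      exact Or.inr hcon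
    exact A.mul_mem _ _ haA hs'


omit [Algebra.IsAlgebraic ℚ L] in
/-- Elements of the decomposition group stabilise `primeOf A`. -/
theorem smul_primeOf_eq_of_mem_decomp {A : ValuationSubring L} {σ : L ≃ₐ[ℚ] L}
    (hσ : σ ∈ A.decompositionSubgroup ℚ) : σ • primeOf A = primeOf A := by
  ext b
  rw [Ideal.mem_pointwise_smul_iff_inv_smul_mem, mem_primeOf_iff, mem_primeOf_iff,
    A.mem_nonunits_iff, A.mem_nonunits_iff]
  have hinv : σ⁻¹ ∈ A.decompositionSubgroup ℚ := Subgroup.inv_mem _ hσ
  have := S05.Inertia.valuation_apply_lt_iff_of_mem_decomp hinv (b : L) 1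
  simpa using this

/-- The decomposition group of `A` is the stabiliser of `primeOf A`. -/
theorem mem_decompositionSubgroup_iff {A : ValuationSubring L} {σ : L ≃ₐ[ℚ] L} :
    σ ∈ A.decompositionSubgroup ℚ ↔ σ • primeOf A = primeOf A :=
  ⟨smul_primeOf_eq_of_mem_decomp, fun h =>
    Frobenius.mem_decompositionSubgroup_of_fractions A (primeOf A) (mem_iff_fractions A) σ h⟩

omit [Algebra.IsAlgebraic ℚ L] in
theorem coe_smul (σ : L ≃ₐ[ℚ] L) (b : integralClosure ℤ L) :
    ((σ • b : integralClosure ℤ L) : L) = σ (b : L) := rfl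

/-- The inertia group of `A` consists of the elements of the stabiliser of `primeOf A` acting
trivially on the quotient. -/
theorem mem_inertiaSubgroupIn_iff {A : ValuationSubring L} {σ : L ≃ₐ[ℚ] L} :
    σ ∈ A.inertiaSubgroupIn ℚ ↔
      σ • primeOf A = primeOf A ∧ ∀ b : integralClosure ℤ L, σ • b - b ∈ primeOf A := by
  constructor
  · intro hσ
    refine ⟨smul_primeOf_eq_of_mem_decomp (S05.Inertia.mem_decompositionSubgroup hσ), fun b => ?_⟩
    rw [mem_primeOf_iff]
    have := S05.Inertia.apply_sub_mem_nonunits hσ (FrobeniusIF.mem_of_isIntegral_int A b.2)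
    simpa using this
  · rintro ⟨hQ, hb⟩
    have hd : σ ∈ A.decompositionSubgroup ℚ := mem_decompositionSubgroup_iff.mpr hQ
    rw [S05.Inertia.mem_inertiaSubgroupIn_iff]
    refine ⟨hd, ?_⟩
    set τ : A.decompositionSubgroup ℚ := ⟨σ, hd⟩ with hτ
    change MulSemiringAction.toRingAut (A.decompositionSubgroup ℚ)
      (IsLocalRing.ResidueField A) τ = 1
    ext x
    obtain ⟨⟨w, hw⟩, rfl⟩ := IsLocalRing.residue_surjective x
    change τ • IsLocalRing.residue A ⟨w, hw⟩ = IsLocalRing.residue A ⟨w, hw⟩
    rw [← IsLocalRing.ResidueField.residue_smul, ← sub_eq_zero, ← map_sub,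
      IsLocalRing.residue_eq_zero_iff, ← ValuationSubring.coe_mem_nonunits_iff]
    have h4 : ((τ • (⟨w, hw⟩ : A) - ⟨w, hw⟩ : A) : L) = σ w - w := by
      push_cast
      rfl
    rw [h4]
    -- now a computation with fractions
    obtain ⟨a, s, hs, rfl⟩ := (mem_iff_fractions A w).mp hw
    have hs0 : (s : L) ≠ 0 := by
      intro h'
      apply hs
      have : s = 0 := Subtype.ext h'
      rw [this]; exact (primeOf A).zero_mem
    have hσs : σ • s ∉ primeOf A := by
      intro h'
      apply hs
      have h1 : σ • s ∈ σ • primeOf A := by rwa [hQ]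
      rwa [Ideal.smul_mem_pointwise_smul_iff] at h1
    have hσs0 : σ (s : L) ≠ 0 := by simpa using hs0
    -- numerator
    have hnum : (σ • a - a) * s - a * (σ • s - s) ∈ primeOf A :=
      (primeOf A).sub_mem ((primeOf A).mul_mem_right _ (hb a)) ((primeOf A).mul_mem_left _ (hb s))
    rw [mem_primeOf_iff] at hnum
    have hden : ((s : L) * σ (s : L))⁻¹ ∈ A := by
      rw [mul_inv]
      refine A.mul_mem _ _ ?_ ?_
      · have := (mem_iff_fractions A ((s : L)⁻¹)).mpr ⟨1, s, hs, by simp⟩
        exact this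
      · have := (mem_iff_fractions A ((σ (s : L))⁻¹)).mpr ⟨1, σ • s, hσs, by simp⟩
        exact this
    have hfinal := FrobeniusIF.mul_mem_nonunits A hnum hden
    have heq : σ ((a : L) * (s : L)⁻¹) - (a : L) * (s : L)⁻¹ =
        (((σ • a - a) * s - a * (σ • s - s) : integralClosure ℤ L) : L) *
          ((s : L) * σ (s : L))⁻¹ := by
      push_cast
      rw [coe_smul, coe_smul, map_mul, map_inv₀]
      field_simp
      ring
    rw [heq]
    exact hfinal

end Fermat.Agent.Lib.InertiaBridge.Val
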