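import Mathlib
import Fermat.Prelude.Def_FLTPrelim_Ramification
import Fermat.Agent.Lib.InertiaBridge.Core
import Fermat.Agent.Lib.InertiaBridge.Val

/-!
# Inertia bridge: lifting along a closed subgroup of `Gal(L/ℚ)`

`L/ℚ` Galois (possibly infinite), `A` a valuation subring of `L`, `H` a closed subgroup of
`Gal(L/ℚ)` (think `H = Gal(L/M)`).

* `exists_mul_mem_decompositionSubgroup`: if `σ` preserves `𝔪_A` on `H`-invariant algebraic
  integers, then `τ * σ ∈ D_A` for some `τ ∈ H`.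
* `exists_mul_mem_inertiaSubgroupIn`: if `σ` moves `H`-invariant algebraic integers only by
  elements of `𝔪_A`, then `τ * σ ∈ I_A` for some `τ ∈ H`.
* `exists_smul_eq_of_liesOverPrime`: any two valuation subrings over the same rational prime are
  conjugate.

Owner: helper88.
-/

set_option autoImplicit false

namespace Fermat.Agent.Lib.InertiaBridge.Lift

open scoped Pointwise
open Fermat.Agent.Lib Fermat.Agent.Lib.InertiaBridge

variable {L : Type*} [Field L] [Algebra ℚ L] [IsGalois ℚ L]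

/-- The action of `Gal(L/ℚ)` on the discrete ring of algebraic integers is continuous. -/
theorem continuousSMul_integralClosure :
    @ContinuousSMul (L ≃ₐ[ℚ] L) (integralClosure ℤ L) _ _ ⊥ := by
  let : TopologicalSpace (integralClosure ℤ L) := ⊥
  have : DiscreteTopology (integralClosure ℤ L) := ⟨rfl⟩
  rw [continuousSMul_iff_stabilizer_isOpen]
  intro b
  convert stabilizer_isOpen_of_isIntegral (K := ℚ) (L := L) (b : L) using 1
  ext g
  simp [MulAction.mem_stabilizer_iff, Subtype.ext_iff]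

theorem exists_mul_mem_decompositionSubgroup (H : Subgroup (L ≃ₐ[ℚ] L))
    (hH : IsClosed (H : Set (L ≃ₐ[ℚ] L))) (A : ValuationSubring L) (σ : L ≃ₐ[ℚ] L)
    (h : ∀ x : L, IsIntegral ℤ x → (∀ τ ∈ H, τ x = x) →
      (σ⁻¹ x ∈ A.nonunits ↔ x ∈ A.nonunits)) :
    ∃ τ ∈ H, τ * σ ∈ A.decompositionSubgroup ℚ := by
  let : TopologicalSpace (integralClosure ℤ L) := ⊥
  have : DiscreteTopology (integralClosure ℤ L) := ⟨rfl⟩
  have : ContinuousSMul (L ≃ₐ[ℚ] L) (integralClosure ℤ L) := continuousSMul_integralClosure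
  obtain ⟨τ, hτ, hQ⟩ := Core.exists_mem_smul_eq H hH (σ • Val.primeOf A) (Val.primeOf A) (by
    intro b hb
    rw [Ideal.mem_pointwise_smul_iff_inv_smul_mem, Val.mem_primeOf_iff, Val.mem_primeOf_iff]
    exact h (b : L) b.2 (fun τ hτ => congrArg Subtype.val (hb τ hτ)))
  refine ⟨τ, hτ, Val.mem_decompositionSubgroup_iff.mpr ?_⟩
  rw [mul_smul, ← hQ]

theorem exists_mul_mem_inertiaSubgroupIn (H : Subgroup (L ≃ₐ[ℚ] L))
    (hH : IsClosed (H : Set (L ≃ₐ[ℚ] L))) (A : ValuationSubring L) (σ : L ≃ₐ[ℚ] L)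
    (hσ : σ ∈ A.decompositionSubgroup ℚ)
    (h : ∀ x : L, IsIntegral ℤ x → (∀ τ ∈ H, τ x = x) → σ x - x ∈ A.nonunits) :
    ∃ τ ∈ H, τ * σ ∈ A.inertiaSubgroupIn ℚ := by
  let : TopologicalSpace (integralClosure ℤ L) := ⊥
  have : DiscreteTopology (integralClosure ℤ L) := ⟨rfl⟩
  have : ContinuousSMul (L ≃ₐ[ℚ] L) (integralClosure ℤ L) := continuousSMul_integralClosure
  have hσQ : σ • Val.primeOf A = Val.primeOf A := Val.smul_primeOf_eq_of_mem_decomp hσ
  obtain ⟨τ, hτ, hτQ, hb⟩ := Core.exists_mem_mul_mem_inertia H hH (Val.primeOf A) σ hσQ (by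
    intro b hb
    rw [Val.mem_primeOf_iff]
    exact h (b : L) b.2 (fun τ hτ => congrArg Subtype.val (hb τ hτ)))
  refine ⟨τ, hτ, Val.mem_inertiaSubgroupIn_iff.mpr ⟨?_, hb⟩⟩
  rw [mul_smul, hσQ, hτQ]


/-! ### Conjugation -/

omit [IsGalois ℚ L] in
theorem mem_nonunits_smul_iff (g : L ≃ₐ[ℚ] L) (A : ValuationSubring L) (x : L) :
    x ∈ (g • A).nonunits ↔ g⁻¹ x ∈ A.nonunits := by
  rw [ValuationSubring.mem_nonunits_iff_or, ValuationSubring.mem_nonunits_iff_or,
    ValuationSubring.mem_pointwise_smul_iff_inv_smul_mem]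
  have h1 : g⁻¹ • x⁻¹ = (g⁻¹ x)⁻¹ := by
    change g⁻¹ x⁻¹ = _
    rw [map_inv₀]
  have h2 : g⁻¹ x = 0 ↔ x = 0 := by
    constructor
    · intro h
      have := congrArg g h
      simpa using this
    · rintro rfl; simp
  rw [h1, h2]

omit [IsGalois ℚ L] in
theorem primeOf_smul (g : L ≃ₐ[ℚ] L) (A : ValuationSubring L) :
    Val.primeOf (g • A) = g • Val.primeOf A := by
  ext b
  rw [Ideal.mem_pointwise_smul_iff_inv_smul_mem, Val.mem_primeOf_iff, Val.mem_primeOf_iff,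
    mem_nonunits_smul_iff]
  rfl

omit [IsGalois ℚ L] in
theorem liesOverPrime_smul (g : L ≃ₐ[ℚ] L) {A : ValuationSubring L} {ℓ : ℕ}
    (hA : A.LiesOverPrime ℓ) : (g • A).LiesOverPrime ℓ := by
  unfold ValuationSubring.LiesOverPrime at hA ⊢
  rw [mem_nonunits_smul_iff]
  simpa using hA

theorem conj_mem_inertiaSubgroupIn (g : L ≃ₐ[ℚ] L) {A : ValuationSubring L} {σ : L ≃ₐ[ℚ] L}
    (hσ : σ ∈ A.inertiaSubgroupIn ℚ) : g * σ * g⁻¹ ∈ (g • A).inertiaSubgroupIn ℚ := by
  rw [Val.mem_inertiaSubgroupIn_iff] at hσ ⊢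
  obtain ⟨hQ, hb⟩ := hσ
  rw [primeOf_smul]
  refine ⟨?_, fun b => ?_⟩
  · rw [mul_smul, mul_smul, inv_smul_smul, hQ]
  · rw [Ideal.mem_pointwise_smul_iff_inv_smul_mem, smul_sub, mul_smul, mul_smul, inv_smul_smul]
    exact hb (g⁻¹ • b)

theorem conj_mem_decompositionSubgroup (g : L ≃ₐ[ℚ] L) {A : ValuationSubring L} {σ : L ≃ₐ[ℚ] L}
    (hσ : σ ∈ A.decompositionSubgroup ℚ) : g * σ * g⁻¹ ∈ (g • A).decompositionSubgroup ℚ := by
  rw [Val.mem_decompositionSubgroup_iff] at hσ ⊢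
  rw [primeOf_smul, mul_smul, mul_smul, inv_smul_smul, hσ]

omit [IsGalois ℚ L] in
/-- A valuation subring is determined by its prime of the ring of algebraic integers. -/
theorem eq_of_primeOf_eq [Algebra.IsAlgebraic ℚ L] {A A' : ValuationSubring L}
    (h : Val.primeOf A = Val.primeOf A') : A = A' := by
  ext x
  rw [Val.mem_iff_fractions A, Val.mem_iff_fractions A', h]

/-- Any two valuation subrings of `L` lying over the same rational prime are conjugate. -/
theorem exists_smul_eq_of_liesOverPrime {ℓ : ℕ} (hℓ : ℓ.Prime) {A A' : ValuationSubring L}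
    (hA : A.LiesOverPrime ℓ) (hA' : A'.LiesOverPrime ℓ) : ∃ g : L ≃ₐ[ℚ] L, A' = g • A := by
  let _ : TopologicalSpace (integralClosure ℤ L) := ⊥
  have : DiscreteTopology (integralClosure ℤ L) := ⟨rfl⟩
  have : ContinuousSMul (L ≃ₐ[ℚ] L) (integralClosure ℤ L) := continuousSMul_integralClosure
  have hinv : Algebra.IsInvariant ℤ (integralClosure ℤ L) (L ≃ₐ[ℚ] L) :=
    Frobenius.isInvariant_integralClosure
  obtain ⟨τ, -, hQ⟩ := Core.exists_mem_smul_eq (⊤ : Subgroup (L ≃ₐ[ℚ] L)) (by simp)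
    (Val.primeOf A) (Val.primeOf A') (by
    intro b hb
    obtain ⟨n, rfl⟩ := hinv.isInvariant b (fun g => hb g (Subgroup.mem_top g))
    rw [Val.mem_primeOf_iff, Val.mem_primeOf_iff, A.mem_nonunits_iff, A'.mem_nonunits_iff]
    have e : ((algebraMap ℤ (integralClosure ℤ L) n : integralClosure ℤ L) : L) = (n : L) := by
      simp
    rw [e, S05.Inertia.valuation_intCast_lt_one_iff hℓ hA,
      S05.Inertia.valuation_intCast_lt_one_iff hℓ hA'])
  refine ⟨τ, eq_of_primeOf_eq ?_⟩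
  rw [primeOf_smul, hQ]

end Fermat.Agent.Lib.InertiaBridge.Lift
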