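import Mathlib
import Fermat.Prelude.Def_FLTPrelim_Ramification
import Fermat.Agent.Lib.InertiaBridge.Lift

/-!
# Inertia bridge: restriction to a normal intermediate field is onto

`L/ℚ` Galois (possibly infinite, e.g. `AlgebraicClosure ℚ`), `M` an intermediate field, normal over
`ℚ`, `A` a valuation subring of `L` and `B = A.comap (algebraMap M L)` the induced valuation subring
of `M`.  Then `AlgEquiv.restrictNormalHom M : Gal(L/ℚ) → Gal(M/ℚ)` maps

* `A.decompositionSubgroup ℚ` **onto** `B.decompositionSubgroup ℚ`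
  (`exists_mem_decompositionSubgroup_restrict`),
* `A.inertiaSubgroupIn ℚ` **onto** `B.inertiaSubgroupIn ℚ`
  (`exists_mem_inertiaSubgroupIn_restrict`).

Corollary `inertiaSubgroupIn_below_eq_bot`: if `I_A ≤ Gal(L/M)` then `I_B = ⊥`.

Owner: helper88.
-/

set_option autoImplicit false

namespace Fermat.Agent.Lib.InertiaBridge.Restrict

open scoped Pointwise
open Fermat.Agent.Lib Fermat.Agent.Lib.InertiaBridge

/- IMPORTANT (instance diamond): for `M : IntermediateField ℚ L` the default instance
`Algebra ℚ ↥M` found by Lean is `DivisionRing.toRatAlgebra`, which is NOT defeq to the instance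
`M.algebra'` used by `AlgEquiv.restrictNormalHom M`.  In this file every `ℚ`-algebra structure on
`↥M` is `M.algebra'`; consumers should put the same line in their file. -/
attribute [local instance 10000] IntermediateField.algebra'

variable {L : Type*} [Field L] [Algebra ℚ L]

/-- The valuation subring of the intermediate field `M` induced by `A`. -/
def below (A : ValuationSubring L) (M : IntermediateField ℚ L) : ValuationSubring M :=
  A.comap (algebraMap M L)

theorem mem_below_iff (A : ValuationSubring L) (M : IntermediateField ℚ L) (x : M) :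
    x ∈ below A M ↔ (x : L) ∈ A := Iff.rfl

theorem mem_nonunits_below_iff (A : ValuationSubring L) (M : IntermediateField ℚ L) (x : M) :
    x ∈ (below A M).nonunits ↔ (x : L) ∈ A.nonunits := by
  rw [ValuationSubring.mem_nonunits_iff_or, ValuationSubring.mem_nonunits_iff_or, mem_below_iff]
  push_cast
  simp

theorem liesOverPrime_below {A : ValuationSubring L} (M : IntermediateField ℚ L) {ℓ : ℕ}
    (hA : A.LiesOverPrime ℓ) : (below A M).LiesOverPrime ℓ := by
  unfold ValuationSubring.LiesOverPrime at hA ⊢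
  rw [mem_nonunits_below_iff]
  simpa using hA

variable [IsGalois ℚ L]

theorem mem_of_forall_fixingSubgroup (M : IntermediateField ℚ L) {x : L}
    (hx : ∀ τ ∈ M.fixingSubgroup, τ x = x) : x ∈ M := by
  rw [← InfiniteGalois.fixedField_fixingSubgroup M]
  rintro ⟨τ, hτ⟩
  exact hx τ hτ

omit [IsGalois ℚ L] in
theorem restrictNormalHom_mul_of_mem_fixingSubgroup (M : IntermediateField ℚ L) [Normal ℚ M]
    {τ : L ≃ₐ[ℚ] L} (hτ : τ ∈ M.fixingSubgroup) (σ : L ≃ₐ[ℚ] L) :
    AlgEquiv.restrictNormalHom M (τ * σ) = AlgEquiv.restrictNormalHom M σ := by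
  rw [map_mul]
  have : AlgEquiv.restrictNormalHom M τ = 1 := by
    ext x
    rw [AlgEquiv.restrictNormalHom_apply]
    exact (IntermediateField.mem_fixingSubgroup_iff M τ).mp hτ x x.2
  rw [this, one_mul]

omit [IsGalois ℚ L] in
theorem coe_restrictNormalHom (M : IntermediateField ℚ L) [Normal ℚ M] (σ : L ≃ₐ[ℚ] L) (x : M) :
    ((AlgEquiv.restrictNormalHom M σ x : M) : L) = σ (x : L) :=
  AlgEquiv.restrictNormalHom_apply M σ x

/-- `G`-level form (no algebra structure on `M` involved): if `σ⁻¹` preserves `𝔪_A` on the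
algebraic integers of `M`, some `τ * σ` with `τ ∈ Gal(L/M)` lies in the decomposition group. -/
theorem exists_mul_mem_decomp_of_field (M : IntermediateField ℚ L) (A : ValuationSubring L)
    (σ : L ≃ₐ[ℚ] L)
    (h : ∀ x ∈ M, IsIntegral ℤ x → (σ⁻¹ x ∈ A.nonunits ↔ x ∈ A.nonunits)) :
    ∃ τ ∈ M.fixingSubgroup, τ * σ ∈ A.decompositionSubgroup ℚ :=
  Lift.exists_mul_mem_decompositionSubgroup M.fixingSubgroup
    (InfiniteGalois.fixingSubgroup_isClosed M) A σ
    (fun x hx hfix => h x (mem_of_forall_fixingSubgroup M hfix) hx)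

/-- `G`-level form: if `σ ∈ D_A` moves the algebraic integers of `M` only by elements of `𝔪_A`,
some `τ * σ` with `τ ∈ Gal(L/M)` lies in the inertia group. -/
theorem exists_mul_mem_inertia_of_field (M : IntermediateField ℚ L) (A : ValuationSubring L)
    (σ : L ≃ₐ[ℚ] L) (hσ : σ ∈ A.decompositionSubgroup ℚ)
    (h : ∀ x ∈ M, IsIntegral ℤ x → σ x - x ∈ A.nonunits) :
    ∃ τ ∈ M.fixingSubgroup, τ * σ ∈ A.inertiaSubgroupIn ℚ :=
  Lift.exists_mul_mem_inertiaSubgroupIn M.fixingSubgroup
    (InfiniteGalois.fixingSubgroup_isClosed M) A σ hσ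
    (fun x hx hfix => h x (mem_of_forall_fixingSubgroup M hfix) hx)

/-- Restriction maps the decomposition group of `A` onto that of `below A M`. -/
theorem exists_mem_decompositionSubgroup_restrict (M : IntermediateField ℚ L) [Normal ℚ M]
    (A : ValuationSubring L) (g : M ≃ₐ[ℚ] M) (hg : g ∈ (below A M).decompositionSubgroup ℚ) :
    ∃ σ ∈ A.decompositionSubgroup ℚ, AlgEquiv.restrictNormalHom M σ = g := by
  obtain ⟨σ₀, rfl⟩ := AlgEquiv.restrictNormalHom_surjective (F := ℚ) (K₁ := M) (E := L) g
  obtain ⟨τ, hτ, hτσ⟩ := Lift.exists_mul_mem_decompositionSubgroup M.fixingSubgroup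
    (InfiniteGalois.fixingSubgroup_isClosed M) A σ₀ (by
    intro x _ hx
    have hxM : x ∈ M := mem_of_forall_fixingSubgroup M hx
    have hinv : (AlgEquiv.restrictNormalHom M σ₀)⁻¹ ∈ (below A M).decompositionSubgroup ℚ :=
      Subgroup.inv_mem _ hg
    have h1 := S05.Inertia.valuation_apply_lt_iff_of_mem_decomp hinv (⟨x, hxM⟩ : M) 1
    simp only [map_one] at h1
    rw [← (below A M).mem_nonunits_iff, ← (below A M).mem_nonunits_iff,
      mem_nonunits_below_iff, mem_nonunits_below_iff, ← map_inv, coe_restrictNormalHom] at h1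
    exact h1)
  exact ⟨τ * σ₀, hτσ, restrictNormalHom_mul_of_mem_fixingSubgroup M hτ σ₀⟩

/-- Restriction maps the inertia group of `A` onto that of `below A M`. -/
theorem exists_mem_inertiaSubgroupIn_restrict (M : IntermediateField ℚ L) [Normal ℚ M]
    (A : ValuationSubring L) (g : M ≃ₐ[ℚ] M) (hg : g ∈ (below A M).inertiaSubgroupIn ℚ) :
    ∃ σ ∈ A.inertiaSubgroupIn ℚ, AlgEquiv.restrictNormalHom M σ = g := by
  obtain ⟨σ₁, hσ₁, rfl⟩ := exists_mem_decompositionSubgroup_restrict M A g
    (S05.Inertia.mem_decompositionSubgroup hg)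
  obtain ⟨τ, hτ, hτσ⟩ := Lift.exists_mul_mem_inertiaSubgroupIn M.fixingSubgroup
    (InfiniteGalois.fixingSubgroup_isClosed M) A σ₁ hσ₁ (by
    intro x hxint hx
    have hxM : x ∈ M := mem_of_forall_fixingSubgroup M hx
    have hxB : (⟨x, hxM⟩ : M) ∈ below A M := by
      rw [mem_below_iff]
      exact FrobeniusIF.mem_of_isIntegral_int A hxint
    have h1 := S05.Inertia.apply_sub_mem_nonunits hg hxB
    rw [mem_nonunits_below_iff] at h1
    push_cast at h1
    rwa [coe_restrictNormalHom] at h1)
  exact ⟨τ * σ₁, hτσ, restrictNormalHom_mul_of_mem_fixingSubgroup M hτ σ₁⟩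

/-- If the inertia group of `A` fixes `M` pointwise, the induced valuation subring of `M` has
trivial inertia group. -/
theorem inertiaSubgroupIn_below_eq_bot (M : IntermediateField ℚ L) [Normal ℚ M]
    (A : ValuationSubring L) (h : A.inertiaSubgroupIn ℚ ≤ M.fixingSubgroup) :
    (below A M).inertiaSubgroupIn ℚ = ⊥ := by
  rw [eq_bot_iff]
  intro g hg
  obtain ⟨σ, hσ, rfl⟩ := exists_mem_inertiaSubgroupIn_restrict M A g hg
  rw [Subgroup.mem_bot]
  ext x
  rw [coe_restrictNormalHom]
  exact (IntermediateField.mem_fixingSubgroup_iff M σ).mp (h hσ) x x.2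

end Fermat.Agent.Lib.InertiaBridge.Restrict
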