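import Mathlib
import Fermat.Prelude.Def_FLTPrelim_Ramification
import Fermat.Agent.Lib.InertiaBridge.Restrict
import Fermat.Agent.Lib.InertiaNumberField

/-!
# Inertia bridge: an open subgroup of `Gal(L/ℚ)` containing all inertia groups is everything

`L/ℚ` Galois (e.g. `L = AlgebraicClosure ℚ`).  If `H` is an open subgroup of `Gal(L/ℚ)` such that
for every prime `ℓ` and every valuation subring `A` of `L` over `ℓ` the inertia group
`A.inertiaSubgroupIn ℚ` is contained in `H`, then `H = ⊤` (Hermite–Minkowski: `ℚ` has no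
unramified extension).  Consequently a homomorphism from `Gal(L/ℚ)` with open kernel which is trivial
on all inertia groups is trivial.

Owner: helper88.  Uses helper82's finite-level Minkowski bridge (`Lib/InertiaNumberField`).
-/

set_option autoImplicit false

namespace Fermat.Agent.Lib.InertiaBridge.Top

open scoped Pointwise
open Fermat.Agent.Lib Fermat.Agent.Lib.InertiaBridge

attribute [local instance 10000] IntermediateField.algebra'

variable {L : Type*} [Field L] [Algebra ℚ L] [IsGalois ℚ L]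

/-- The normal core of an open subgroup of `Gal(L/ℚ)` is open. -/
theorem isOpen_normalCore (H : Subgroup (L ≃ₐ[ℚ] L)) (hH : IsOpen (H : Set (L ≃ₐ[ℚ] L))) :
    IsOpen (H.normalCore : Set (L ≃ₐ[ℚ] L)) := by
  obtain ⟨N, hN⟩ := ProfiniteGrp.exist_openNormalSubgroup_sub_open_nhds_of_one
    (G := L ≃ₐ[ℚ] L) hH (one_mem H)
  have hle : N.1.1 ≤ H.normalCore := by
    have : N.1.1.Normal := N.2
    exact Subgroup.normal_le_normalCore.mpr (fun x hx => hN hx)
  exact Subgroup.isOpen_mono hle N.1.2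

/-- All inertia groups lie in the normal core of `H` as soon as they all lie in `H`. -/
theorem inertia_le_normalCore (H : Subgroup (L ≃ₐ[ℚ] L))
    (h : ∀ ℓ : ℕ, ℓ.Prime → ∀ A : ValuationSubring L, A.LiesOverPrime ℓ →
      A.inertiaSubgroupIn ℚ ≤ H)
    (ℓ : ℕ) (hℓ : ℓ.Prime) (A : ValuationSubring L) (hA : A.LiesOverPrime ℓ) :
    A.inertiaSubgroupIn ℚ ≤ H.normalCore := by
  intro σ hσ b
  exact h ℓ hℓ (b • A) (Lift.liesOverPrime_smul b hA) (Lift.conj_mem_inertiaSubgroupIn b hσ)

/-- **Main theorem**: an open subgroup of `Gal(L/ℚ)` containing every inertia group is `⊤`. -/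
theorem eq_top_of_isOpen_of_inertia_le (H : Subgroup (L ≃ₐ[ℚ] L))
    (hH : IsOpen (H : Set (L ≃ₐ[ℚ] L)))
    (h : ∀ ℓ : ℕ, ℓ.Prime → ∀ A : ValuationSubring L, A.LiesOverPrime ℓ →
      A.inertiaSubgroupIn ℚ ≤ H) :
    H = ⊤ := by
  set N := H.normalCore with hN
  have hNopen : IsOpen (N : Set (L ≃ₐ[ℚ] L)) := isOpen_normalCore H hH
  have hNclosed : IsClosed (N : Set (L ≃ₐ[ℚ] L)) := Subgroup.isClosed_of_isOpen N hNopen
  set M : IntermediateField ℚ L := IntermediateField.fixedField N with hM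
  have hfix : M.fixingSubgroup = N :=
    InfiniteGalois.fixingSubgroup_fixedField (⟨N, hNclosed⟩ : ClosedSubgroup (L ≃ₐ[ℚ] L))
  have hfin : FiniteDimensional ℚ M := by
    rw [← InfiniteGalois.isOpen_iff_finite, hfix]
    exact hNopen
  have hgal : IsGalois ℚ M := by
    rw [← InfiniteGalois.normal_iff_isGalois, hfix]
    infer_instance
  have hnormal : Normal ℚ M := hgal.to_normal
  have hone : Module.finrank ℚ M = 1 := by
    refine InertiaNumberField.finrank_eq_one_of_forall_exists_inertia_trivial M (fun q hq => ?_)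
    obtain ⟨A, -, hA, -⟩ := Frobenius.exists_isFrobeniusAt_of_isGalois (K := L) q hq
    refine ⟨Restrict.below A M, Restrict.liesOverPrime_below M hA, fun σ hσ => ?_⟩
    have hbot := Restrict.inertiaSubgroupIn_below_eq_bot M A (by
      rw [hfix]
      exact inertia_le_normalCore H h q hq A hA)
    rw [hbot] at hσ
    exact Subgroup.mem_bot.mp hσ
  have hMbot : M = ⊥ := IntermediateField.finrank_eq_one_iff.mp hone
  have hNtop : N = ⊤ := by
    rw [← hfix, hMbot]
    exact IntermediateField.fixingSubgroup_bot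
  rw [eq_top_iff, ← hNtop]
  exact Subgroup.normalCore_le H

/-- A monoid homomorphism from `Gal(L/ℚ)` with open kernel, trivial on all inertia groups, is
trivial. -/
theorem monoidHom_eq_one_of_inertia {X : Type*} [Group X] (f : (L ≃ₐ[ℚ] L) →* X)
    (hf : IsOpen (f.ker : Set (L ≃ₐ[ℚ] L)))
    (h : ∀ ℓ : ℕ, ℓ.Prime → ∀ A : ValuationSubring L, A.LiesOverPrime ℓ →
      ∀ σ ∈ A.inertiaSubgroupIn ℚ, f σ = 1) (σ : L ≃ₐ[ℚ] L) : f σ = 1 := by
  have := eq_top_of_isOpen_of_inertia_le f.ker hf (fun ℓ hℓ A hA σ hσ => h ℓ hℓ A hA σ hσ)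
  have hσ : σ ∈ f.ker := by rw [this]; exact Subgroup.mem_top σ
  exact hσ

end Fermat.Agent.Lib.InertiaBridge.Top
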